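import Fermat.Agent.Jac.CurveModel.Points

/-!
# The locus where a rational function on a curve is regular

It is affine, and its ring is finite over the polynomials in the function.
-/

set_option autoImplicit false

universe u

open CategoryTheory AlgebraicGeometry TopologicalSpace Opposite Polynomial

namespace FLTAgent.Jac.Curve

variable {k : Type u} [Field k] [IsAlgClosed k] {C : Scheme.{u}} (c : C ⟶ Spec (CommRingCat.of k))
  [IsIntegral C]

/-- The open set of points at which `x` is regular. -/
noncomputable def regLocus (x : C.functionField) : C.Opens :=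
  sSup {W | ∃ (_ : Nonempty W) (s : Γ(C, W)), C.germToFunctionField W s = x}

theorem mem_regLocus {x : C.functionField} {P : C} :
    P ∈ regLocus x ↔ x ∈ Set.range (algebraMap (C.presheaf.stalk P) C.functionField) := by
  rw [regLocus, Opens.mem_sSup]
  constructor
  · rintro ⟨W, ⟨hW, s, hs⟩, hP⟩
    exact ⟨C.presheaf.germ W P hP s, (C.algebraMap_germ_eq_germToFunctionField hP s).trans hs⟩
  · rintro ⟨a, rfl⟩
    obtain ⟨W, hP, s, rfl⟩ := C.presheaf.exists_germ_eq a
    have : Nonempty W := ⟨⟨P, hP⟩⟩
    exact ⟨W, ⟨this, s, (C.algebraMap_germ_eq_germToFunctionField hP s).symm⟩, hP⟩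

theorem genericPoint_mem_regLocus (x : C.functionField) : genericPoint C ∈ regLocus x := by
  obtain ⟨W, hP, s, hs⟩ := C.presheaf.exists_germ_eq x
  rw [regLocus, Opens.mem_sSup]
  exact ⟨W, ⟨⟨⟨_, hP⟩⟩, s, hs⟩, hP⟩

instance nonempty_regLocus (x : C.functionField) : Nonempty (regLocus x) :=
  ⟨⟨_, genericPoint_mem_regLocus x⟩⟩

instance nonempty_regLocus_inf (x y : C.functionField) :
    Nonempty (regLocus x ⊓ regLocus y : C.Opens) :=
  ⟨⟨_, genericPoint_mem_regLocus x, genericPoint_mem_regLocus y⟩⟩

theorem germToFunctionField_res {U V : C.Opens} [Nonempty U] [Nonempty V] (h : V ≤ U)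
    (s : Γ(C, U)) :
    C.germToFunctionField V (C.presheaf.map (homOfLE h).op s) = C.germToFunctionField U s :=
  C.presheaf.germ_res_apply (homOfLE h) (genericPoint C) _ s

theorem exists_sec (x : C.functionField) :
    ∃ s : Γ(C, regLocus x), C.germToFunctionField (regLocus x) s = x := by
  let I := {W : C.Opens // ∃ (_ : Nonempty W) (s : Γ(C, W)), C.germToFunctionField W s = x}
  let Uf : I → C.Opens := fun i => i.1
  have hle : ∀ i : I, Uf i ≤ regLocus x := fun i => le_sSup i.2
  have hcov : regLocus x ≤ iSup Uf := sSup_le fun W hW => le_iSup Uf ⟨W, hW⟩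
  let sf : ∀ i : I, Γ(C, Uf i) := fun i => i.2.choose_spec.choose
  have hsf : ∀ i : I, C.presheaf.germ (Uf i) (genericPoint C)
      (genericPoint_mem (i.2.choose.some.2)) (sf i) = x := fun i => i.2.choose_spec.choose_spec
  obtain ⟨s, hs, -⟩ := TopCat.Sheaf.existsUnique_gluing' C.sheaf Uf (regLocus x)
    (fun i => homOfLE (hle i)) hcov sf fun i j => by
      refine germ_injective_of_isIntegral C (genericPoint C)
        (show genericPoint C ∈ Uf i ⊓ Uf j from
          ⟨genericPoint_mem i.2.choose.some.2, genericPoint_mem j.2.choose.some.2⟩) ?_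
      exact ((C.presheaf.germ_res_apply _ _ _ _).trans (hsf i)).trans
        ((C.presheaf.germ_res_apply _ _ _ _).trans (hsf j)).symm
  obtain ⟨W, hW, t, ht⟩ := C.presheaf.exists_germ_eq x
  let i : I := ⟨W, ⟨⟨_, hW⟩⟩, t, ht⟩
  refine ⟨s, ?_⟩
  exact ((C.presheaf.germ_res_apply (homOfLE (hle i)) (genericPoint C) hW s).symm.trans
    (congrArg (C.presheaf.germ (Uf i) (genericPoint C) hW) (hs i))).trans (hsf i)

/-- `x` as a function on its regular locus. -/
noncomputable def sec (x : C.functionField) : Γ(C, regLocus x) := (exists_sec x).choose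

theorem germ_sec (x : C.functionField) : C.germToFunctionField (regLocus x) (sec x) = x :=
  (exists_sec x).choose_spec

theorem sec_mul_sec_inv {x : C.functionField} (hx : x ≠ 0) :
    C.presheaf.map (homOfLE (inf_le_left : regLocus x ⊓ regLocus x⁻¹ ≤ regLocus x)).op (sec x) *
      C.presheaf.map (homOfLE (inf_le_right : regLocus x ⊓ regLocus x⁻¹ ≤ regLocus x⁻¹)).op
        (sec x⁻¹) = 1 := by
  refine Scheme.germToFunctionField_injective C _ ?_
  rw [map_mul, map_one, germToFunctionField_res, germToFunctionField_res, germ_sec, germ_sec,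
    mul_inv_cancel₀ hx]

theorem mem_basicOpen_sec {x : C.functionField} (hx : x ≠ 0) {P : C} :
    P ∈ C.basicOpen (sec x) ↔ P ∈ regLocus x ∧ P ∈ regLocus x⁻¹ := by
  constructor
  · intro h
    have hP := C.basicOpen_le _ h
    obtain ⟨u, hu⟩ := (C.mem_basicOpen _ P hP).mp h
    refine ⟨hP, mem_regLocus.mpr ⟨(u⁻¹ : (C.presheaf.stalk P)ˣ), eq_inv_of_mul_eq_one_left ?_⟩⟩
    rw [← germ_sec x, ← C.algebraMap_germ_eq_germToFunctionField hP, ← hu, ← map_mul,
      Units.inv_mul, map_one]
  · rintro ⟨hP, hP'⟩
    rw [C.mem_basicOpen _ P hP]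
    refine IsUnit.of_mul_eq_one (C.presheaf.germ _ P hP' (sec x⁻¹)) ?_
    refine IsFractionRing.injective (C.presheaf.stalk P) C.functionField ?_
    rw [map_mul, C.algebraMap_germ_eq_germToFunctionField hP,
      C.algebraMap_germ_eq_germToFunctionField hP', germ_sec, germ_sec, map_one,
      mul_inv_cancel₀ hx]

theorem basicOpen_sec {x : C.functionField} (hx : x ≠ 0) :
    C.basicOpen (sec x) = regLocus x ⊓ regLocus x⁻¹ :=
  Opens.ext (Set.ext fun _ => mem_basicOpen_sec hx)

section Line

instance nonempty_top : Nonempty (⊤ : C.Opens) := ⟨⟨genericPoint C, trivial⟩⟩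

/-- The constants of the function field. -/
noncomputable def constK : k →+* C.functionField :=
  (C.germToFunctionField ⊤).hom.comp (constHom c ⊤)

/-- Polynomials in `x`. -/
noncomputable def evalSec (x : C.functionField) : k[X] →+* Γ(C, regLocus x) :=
  eval₂RingHom (constHom c (regLocus x)) (sec x)

theorem germ_evalSec (x : C.functionField) (q : k[X]) :
    C.germToFunctionField (regLocus x) (evalSec c x q) = eval₂RingHom (constK c) x q := by
  have hconst : (C.germToFunctionField (regLocus x)).hom.comp (constHom c (regLocus x)) =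
      constK c := by
    ext r
    show C.germToFunctionField _ (constHom c _ r) = C.germToFunctionField ⊤ (constHom c ⊤ r)
    rw [← constHom_res c (le_top : regLocus x ≤ ⊤), germToFunctionField_res]
  have h : (C.germToFunctionField (regLocus x)).hom.comp (evalSec c x) =
      eval₂RingHom (constK c) x := by
    refine Polynomial.ringHom_ext' ?_ ?_
    · ext r
      simp only [RingHom.comp_apply, evalSec, coe_eval₂RingHom, eval₂_C]
      exact DFunLike.congr_fun hconst r
    · simp only [RingHom.comp_apply, evalSec, coe_eval₂RingHom, eval₂_X]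
      exact germ_sec x
  exact DFunLike.congr_fun h q

theorem evalSec_injective {x : C.functionField}
    (htr : Function.Injective (eval₂RingHom (constK c) x)) :
    Function.Injective (evalSec c x) := fun a b h => htr (by
  rw [← germ_evalSec, ← germ_evalSec, h])

/-- The morphism to the line given by `x`. -/
noncomputable def toLine (x : C.functionField) :
    (regLocus x).toScheme ⟶ Spec (CommRingCat.of k[X]) :=
  (regLocus x).toSpecΓ ≫ Spec.map (CommRingCat.ofHom (evalSec c x))

omit [IsIntegral C] in
theorem toSpecΓ_constHom (U : C.Opens) :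
    U.toSpecΓ ≫ Spec.map (CommRingCat.ofHom (constHom c U)) = U.ι ≫ c := by
  show U.toSpecΓ ≫ Spec.map ((Scheme.ΓSpecIso (CommRingCat.of k)).inv ≫ c.appLE ⊤ U le_top) = _
  have h := Scheme.Opens.toSpecΓ_SpecMap_appLE c ⊤ U le_top
  rw [Spec.map_comp, ← Category.assoc]
  refine (congrArg (· ≫ Spec.map (Scheme.ΓSpecIso (CommRingCat.of k)).inv) h).trans ?_
  rw [Scheme.Opens.toSpecΓ_top, Category.assoc, Category.assoc, toSpecΓ_SpecMap_ΓSpecIso_inv,
    Category.comp_id]
  exact Scheme.Hom.resLE_comp_ι _ _

theorem toLine_comp (x : C.functionField) :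
    toLine c x ≫ Spec.map (CommRingCat.ofHom (Polynomial.C : k →+* k[X])) = (regLocus x).ι ≫ c := by
  rw [toLine, Category.assoc, ← Spec.map_comp, ← CommRingCat.ofHom_comp, ← toSpecΓ_constHom]
  congr 2
  ext r
  simp [evalSec]

omit [IsIntegral C] in
theorem top_le_preimage {R : CommRingCat.{u}} {U : C.Opens} (g' : Spec R ⟶ U.toScheme) :
    (⊤ : (Spec R).Opens) ≤ (g' ≫ U.ι) ⁻¹ᵁ U := fun z _ => (g' z).2

/-- The values of functions along a morphism from an affine scheme into their domain. -/
noncomputable def value {R : CommRingCat.{u}} {U : C.Opens} (g' : Spec R ⟶ U.toScheme) :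
    Γ(C, U) ⟶ R :=
  (g' ≫ U.ι).appLE U ⊤ (top_le_preimage g') ≫ (Scheme.ΓSpecIso R).hom

omit [IsIntegral C] in
theorem comp_toSpecΓ {R : CommRingCat.{u}} {U : C.Opens} (g' : Spec R ⟶ U.toScheme) :
    g' ≫ U.toSpecΓ = Spec.map (value g') := by
  have h := Scheme.Opens.toSpecΓ_SpecMap_appLE (g' ≫ U.ι) U ⊤ (top_le_preimage g')
  have hres : (g' ≫ U.ι).resLE U ⊤ (top_le_preimage g') = (⊤ : (Spec R).Opens).ι ≫ g' := by
    rw [← cancel_mono U.ι, Scheme.Hom.resLE_comp_ι, Category.assoc]
  have : IsIso (⊤ : (Spec R).Opens).ι := (Scheme.topIso (Spec R)).isIso_hom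
  rw [hres, Scheme.Opens.toSpecΓ_top, Category.assoc, Category.assoc, cancel_epi] at h
  have hΓ : (Spec R).toSpecΓ = Spec.map (Scheme.ΓSpecIso R).hom := by
    rw [← cancel_mono (Spec.map (Scheme.ΓSpecIso R).inv), toSpecΓ_SpecMap_ΓSpecIso_inv,
      ← Spec.map_comp, Iso.inv_hom_id, Spec.map_id]
  rw [← h, value, Spec.map_comp, hΓ]

omit [IsIntegral C] in
theorem value_comp {R R' : CommRingCat.{u}} {U : C.Opens} (φ : R ⟶ R')
    (g' : Spec R ⟶ U.toScheme) : value (Spec.map φ ≫ g') = value g' ≫ φ :=
  Spec.map_injective (by rw [← comp_toSpecΓ, Category.assoc, comp_toSpecΓ, Spec.map_comp])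

omit [IsIntegral C] in
theorem value_res {R : CommRingCat.{u}} {U W : C.Opens} (h : W ≤ U) (g' : Spec R ⟶ W.toScheme) :
    C.presheaf.map (homOfLE h).op ≫ value g' = value (g' ≫ C.homOfLE h) :=
  Spec.map_injective (by
    rw [← comp_toSpecΓ, Spec.map_comp, ← comp_toSpecΓ, Category.assoc, Category.assoc,
      Scheme.Opens.toSpecΓ_SpecMap_presheaf_map])

theorem value_sec {x : C.functionField} {R R' : CommRingCat.{u}} {φ : R ⟶ R'}
    (i : Spec R' ⟶ (regLocus x).toScheme) (ψ : CommRingCat.of k[X] ⟶ R)
    (h : i ≫ toLine c x = Spec.map φ ≫ Spec.map ψ) : value i (sec x) = φ (ψ X) := by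
  rw [toLine, ← Category.assoc, comp_toSpecΓ, ← Spec.map_comp, ← Spec.map_comp] at h
  have h' := DFunLike.congr_fun (congrArg CommRingCat.Hom.hom (Spec.map_injective h)) X
  simpa [evalSec] using h'

/-- A lift lands in the regular locus if the value of `x` is integral. -/
theorem mem_regLocus_of_value {x : C.functionField} (hx : x ≠ 0) {R L : Type u} [CommRing R]
    [IsDomain R] [IsLocalRing R] [Field L] [Algebra R L] [IsFractionRing R L]
    (i : Spec (CommRingCat.of L) ⟶ (regLocus x).toScheme) (g : Spec (CommRingCat.of R) ⟶ C)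
    (hg : Spec.map (CommRingCat.ofHom (algebraMap R L)) ≫ g = i ≫ (regLocus x).ι)
    (hQ : g (IsLocalRing.closedPoint R) ∈ regLocus x⁻¹)
    (hin : Set.range g ⊆ Set.range (regLocus x⁻¹).ι) (r : R)
    (hv : value i (sec x) = algebraMap R L r) : g (IsLocalRing.closedPoint R) ∈ regLocus x := by
  let g' := IsOpenImmersion.lift (regLocus x⁻¹).ι g hin
  have hg' : g' ≫ (regLocus x⁻¹).ι = g := IsOpenImmersion.lift_fac _ _ _
  let j := Spec.map (CommRingCat.ofHom (algebraMap R L))
  have hW : Set.range (j ≫ g) ⊆ Set.range (regLocus x ⊓ regLocus x⁻¹).ι := by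
    rw [Scheme.Opens.range_ι]
    rintro _ ⟨z, rfl⟩
    refine ⟨?_, ?_⟩
    · rw [hg]; exact (i z).2
    · rw [← hg', ← Category.assoc]; exact ((j ≫ g') z).2
  let h := IsOpenImmersion.lift (regLocus x ⊓ regLocus x⁻¹).ι (j ≫ g) hW
  have hh : h ≫ (regLocus x ⊓ regLocus x⁻¹).ι = j ≫ g := IsOpenImmersion.lift_fac _ _ hW
  have h1 : h ≫ C.homOfLE inf_le_left = i := by
    rw [← cancel_mono (regLocus x).ι, Category.assoc, Scheme.homOfLE_ι, hh, hg]
  have h2 : h ≫ C.homOfLE inf_le_right = j ≫ g' := by
    rw [← cancel_mono (regLocus x⁻¹).ι, Category.assoc, Scheme.homOfLE_ι, hh, Category.assoc, hg']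
  have hone := congrArg (value h) (sec_mul_sec_inv hx)
  rw [map_mul, map_one, ← CategoryTheory.comp_apply, ← CategoryTheory.comp_apply,
    value_res inf_le_left, value_res inf_le_right, h1, h2, value_comp, hv] at hone
  have hw : IsUnit (value g' (sec x⁻¹)) := by
    refine IsUnit.of_mul_eq_one r (IsFractionRing.injective R L ?_)
    rw [map_mul, map_one, mul_comm]
    exact hone
  have hu : IsUnit ((g' ≫ (regLocus x⁻¹).ι).appLE _ ⊤ (top_le_preimage g') (sec x⁻¹)) :=
    (MulEquiv.isUnit_map (Scheme.ΓSpecIso (CommRingCat.of R)).commRingCatIsoToRingEquiv).mp hw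
  have hb := Scheme.basicOpen_of_isUnit _ hu
  rw [Scheme.basicOpen_appLE] at hb
  have hmem : IsLocalRing.closedPoint R ∈ (g' ≫ (regLocus x⁻¹).ι) ⁻¹ᵁ C.basicOpen (sec x⁻¹) :=
    ((congrArg (IsLocalRing.closedPoint R ∈ ·) hb).mpr trivial).2
  have := (mem_basicOpen_sec (inv_ne_zero hx)).mp hmem
  rw [inv_inv, hg'] at this
  exact this.2

theorem toLine_appTop_apply (x : C.functionField) (p : k[X]) :
    (regLocus x).topIso.hom ((toLine c x).appTop ((Scheme.ΓSpecIso (CommRingCat.of k[X])).inv p)) =
      evalSec c x p := by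
  rw [toLine, Scheme.Hom.comp_appTop, Scheme.Opens.toSpecΓ_appTop, ← Category.assoc,
    Scheme.ΓSpecIso_naturality]
  simp only [CommRingCat.comp_apply, Iso.inv_hom_id_apply]
  rfl

variable [SmoothOfRelativeDimension 1 c]

include c in
theorem regLocus_sup_inv (x : C.functionField) : regLocus x ⊔ regLocus x⁻¹ = ⊤ := by
  refine eq_top_iff.mpr fun P _ => ?_
  have := valuationRing_stalk c P
  rcases ValuationRing.isInteger_or_isInteger (C.presheaf.stalk P) x with h | h
  · exact Or.inl (mem_regLocus.mpr h)
  · exact Or.inr (mem_regLocus.mpr h)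

variable [IsProper c]

theorem valuativeExistence {x : C.functionField} (hx : x ≠ 0) :
    ValuativeCriterion.Existence (toLine c x) := by
  intro S
  let j := Spec.map (CommRingCat.ofHom (algebraMap S.R S.K))
  let q := Spec.map (CommRingCat.ofHom (Polynomial.C : k →+* k[X]))
  have hval : ValuativeCriterion c := by
    have h : IsProper c := inferInstance
    rw [IsProper.eq_valuativeCriterion] at h
    exact h.1.1.1
  have sq : CommSq (S.i₁ ≫ (regLocus x).ι) j c (S.i₂ ≫ q) :=
    ⟨by rw [Category.assoc, ← toLine_comp, ← Category.assoc, S.commSq.w, Category.assoc]⟩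
  obtain ⟨⟨g, hg₁, -⟩⟩ := (hval.existence ⟨S.R, S.K, _, _, sq⟩).exists_lift
  have hin : ∀ {U : C.Opens}, g (IsLocalRing.closedPoint S.R) ∈ U →
      Set.range g ⊆ Set.range U.ι := fun {U} hU => by
    rintro _ ⟨z, rfl⟩
    rw [Scheme.Opens.range_ι]
    exact ((IsLocalRing.specializes_closedPoint z).map g.continuous).mem_open U.isOpen hU
  obtain ⟨ψ, hψ⟩ := Spec.map_surjective S.i₂
  by_cases hQ : g (IsLocalRing.closedPoint S.R) ∈ regLocus x
  · let g' := IsOpenImmersion.lift (regLocus x).ι g (hin hQ)
    have hg' : g' ≫ (regLocus x).ι = g := IsOpenImmersion.lift_fac _ _ _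
    have hl : j ≫ g' = S.i₁ := by rw [← cancel_mono (regLocus x).ι, Category.assoc, hg', hg₁]
    refine ⟨⟨⟨g', hl, ?_⟩⟩⟩
    obtain ⟨χ, hχ⟩ := Spec.map_surjective (g' ≫ toLine c x)
    have h : j ≫ g' ≫ toLine c x = j ≫ S.i₂ := by rw [← Category.assoc, hl, S.commSq.w]
    have h0 : j ≫ Spec.map χ = j ≫ Spec.map ψ := by rw [hχ, hψ]; exact h
    rw [← Spec.map_comp, ← Spec.map_comp] at h0
    have h' := Spec.map_injective h0
    have e : χ = ψ := CommRingCat.hom_ext (RingHom.ext fun p => IsFractionRing.injective S.R S.K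
      (DFunLike.congr_fun (congrArg CommRingCat.Hom.hom h') p))
    exact hχ.symm.trans ((congrArg Spec.map e).trans hψ)
  refine absurd ?_ hQ
  have hQ' : g (IsLocalRing.closedPoint S.R) ∈ regLocus x⁻¹ := by
    have h : g (IsLocalRing.closedPoint S.R) ∈ regLocus x ⊔ regLocus x⁻¹ := by
      rw [regLocus_sup_inv c x]; trivial
    exact h.resolve_left hQ
  exact mem_regLocus_of_value hx S.i₁ g hg₁ hQ' (hin hQ') (ψ X) (value_sec c S.i₁ ψ
    (S.commSq.w.trans (congrArg (j ≫ ·) hψ.symm)))

include c in
theorem smooth_loc (x : C.functionField) :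
    SmoothOfRelativeDimension 1 ((regLocus x).ι ≫ c) :=
  smoothOfRelativeDimension_comp (n := 0) (m := 1) _ _

theorem isFinite_toLine {x : C.functionField}
    (htr : Function.Injective (eval₂RingHom (constK c) x)) : IsFinite (toLine c x) := by
  have hx : x ≠ 0 := fun h => X_ne_zero (R := k) (htr (by simp [h]))
  have : Smooth c := SmoothOfRelativeDimension.smooth 1 c
  have : IsLocallyNoetherian C := LocallyOfFiniteType.isLocallyNoetherian c
  have hcomp := toLine_comp c x
  have : LocallyOfFiniteType (toLine c x) := by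
    have h : LocallyOfFiniteType
        (toLine c x ≫ Spec.map (CommRingCat.ofHom (Polynomial.C : k →+* k[X]))) := by
      rw [hcomp]; infer_instance
    exact locallyOfFiniteType_of_comp (toLine c x) (Spec.map (CommRingCat.ofHom (Polynomial.C : k →+* k[X])))
  have : IsSeparated (toLine c x) := by
    have h : IsSeparated
        (toLine c x ≫ Spec.map (CommRingCat.ofHom (Polynomial.C : k →+* k[X]))) := by
      rw [hcomp]; infer_instance
    exact IsSeparated.of_comp (toLine c x) (Spec.map (CommRingCat.ofHom (Polynomial.C : k →+* k[X])))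
  have : QuasiCompact ((regLocus x).ι ≫ c) := inferInstance
  have : QuasiCompact (toLine c x) := by
    have h : QuasiCompact
        (toLine c x ≫ Spec.map (CommRingCat.ofHom (Polynomial.C : k →+* k[X]))) := by
      rw [hcomp]; infer_instance
    exact QuasiCompact.of_comp (toLine c x) (Spec.map (CommRingCat.ofHom (Polynomial.C : k →+* k[X])))
  have : IsProper (toLine c x) := IsProper.of_valuativeCriterion _
    (ValuativeCriterion.iff.mpr
      ⟨valuativeExistence c hx, IsSeparated.valuativeCriterion _⟩)
  have : LocallyQuasiFinite (toLine c x) :=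
    LocallyQuasiFinite.of_finite_preimage_singleton _ fun b => by
    have : AlgebraicGeometry.IsIntegral (regLocus x).toScheme := inferInstance
    have := smooth_loc c x
    by_cases hb : b.asIdeal = ⊥
    · refine (Set.finite_singleton (genericPoint (regLocus x).toScheme)).subset fun P hP => ?_
      by_contra hne
      have hcl := isClosed_singleton_of_ne ((regLocus x).ι ≫ c) hne
      let p := pointOfClosedPoint ((regLocus x).ι ≫ c) P hcl
      have hp : (p ≫ toLine c x) ≫
          Spec.map (CommRingCat.ofHom (Polynomial.C : k →+* k[X])) = 𝟙 _ := by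
        rw [Category.assoc, hcomp, pointOfClosedPoint_comp]
      have hci := isClosedImmersion_of_comp_eq_id
        (Spec.map (CommRingCat.ofHom (Polynomial.C : k →+* k[X]))) (p ≫ toLine c x) hp
      have hclb : IsClosed ({b} : Set (Spec (CommRingCat.of k[X]))) := by
        have hpt : ∀ z, (p ≫ toLine c x) z = b := fun z => by
          simp [p]; exact hP
        have hr : Set.range (p ≫ toLine c x : _ ⟶ _) = ({b} : Set (Spec (CommRingCat.of k[X]))) :=
          Set.Subset.antisymm (Set.range_subset_iff.mpr hpt)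
            (Set.singleton_subset_iff.mpr ⟨IsLocalRing.closedPoint k, hpt _⟩)
        rw [← hr]
        exact (p ≫ toLine c x).isClosedEmbedding.isClosed_range
      have hmax := (PrimeSpectrum.isClosed_singleton_iff_isMaximal b).mp hclb
      rw [hb] at hmax
      have hXtop : Ideal.span {(X : k[X])} ≠ ⊤ := fun h =>
        Polynomial.not_isUnit_X (R := k) (Ideal.span_singleton_eq_top.mp h)
      exact X_ne_zero (R := k) (Ideal.span_singleton_eq_bot.mp (hmax.eq_of_le hXtop bot_le).symm)
    · refine finite_of_isClosed ((regLocus x).ι ≫ c) ?_ ?_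
      · have hmax : b.asIdeal.IsMaximal := Ideal.IsPrime.isMaximal b.isPrime hb
        exact ((PrimeSpectrum.isClosed_singleton_iff_isMaximal b).mpr hmax).preimage
          (toLine c x).continuous
      · intro hη
        obtain ⟨p, hp, hp0⟩ := Submodule.exists_mem_ne_zero_of_ne_bot hb
        let s : Γ(Spec (CommRingCat.of k[X]), ⊤) := (Scheme.ΓSpecIso (CommRingCat.of k[X])).inv p
        have h0 : (toLine c x).appTop s ≠ 0 := by
          intro h
          refine hp0 (evalSec_injective c htr ?_)
          rw [map_zero, ← toLine_appTop_apply]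
          show (regLocus x).topIso.hom ((toLine c x).appTop s) = 0
          rw [h, map_zero]
        have hne : genericPoint (regLocus x).toScheme ∈
            (regLocus x).toScheme.basicOpen ((toLine c x).appTop s) := by
          obtain ⟨z, hz⟩ : ((regLocus x).toScheme.basicOpen ((toLine c x).appTop s) :
              Set (regLocus x).toScheme).Nonempty := by
            rw [Set.nonempty_iff_ne_empty]
            intro he
            exact h0 ((basicOpen_eq_bot_iff _).mp (Opens.ext he))
          exact genericPoint_mem hz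
        rw [← Scheme.preimage_basicOpen_top] at hne
        have hb' : b ∈ (Spec (CommRingCat.of k[X])).basicOpen s := by
          rw [← (show toLine c x (genericPoint _) = b from hη)]
          exact hne
        rw [basicOpen_eq_of_affine] at hb'
        exact hb' hp
  exact IsFinite.of_isProper_of_locallyQuasiFinite _

theorem isAffineOpen_regLocus {x : C.functionField}
    (htr : Function.Injective (eval₂RingHom (constK c) x)) : IsAffineOpen (regLocus x) := by
  have := isFinite_toLine c htr
  exact isAffine_of_isAffineHom (toLine c x)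

theorem finite_evalSec {x : C.functionField}
    (htr : Function.Injective (eval₂RingHom (constK c) x)) : (evalSec c x).Finite := by
  have := isFinite_toLine c htr
  have h := (toLine c x).finite_appTop
  let e₁ := (Scheme.ΓSpecIso (CommRingCat.of k[X])).commRingCatIsoToRingEquiv
  let e₂ := (regLocus x).topIso.commRingCatIsoToRingEquiv
  have h' := ((RingHom.Finite.of_surjective e₂.toRingHom e₂.surjective).comp h).comp
    (RingHom.Finite.of_surjective e₁.symm.toRingHom e₁.symm.surjective)
  convert h' using 1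
  exact RingHom.ext fun p => (toLine_appTop_apply c x p).symm

end Line

end FLTAgent.Jac.Curve
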