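import Mathlib

/-!
# Commutative algebra for two-chart models of curves
-/

set_option autoImplicit false

universe u

open TensorProduct Polynomial

namespace FLTAgent.Jac

section Tensor

variable {k : Type u} [Field k] [IsAlgClosed k]

/-- A finitely generated domain over an algebraically closed field has a point off any given
non-zero element. -/
theorem exists_algHom_apply_ne_zero {B : Type u} [CommRing B] [Algebra k B] [IsDomain B]
    [Algebra.FiniteType k B] {b : B} (hb : b ≠ 0) : ∃ φ : B →ₐ[k] k, φ b ≠ 0 := by
  have : IsJacobsonRing B := isJacobsonRing_of_finiteType (A := k)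
  obtain ⟨m, hm, hbm⟩ : ∃ m : Ideal B, m.IsMaximal ∧ b ∉ m := by
    by_contra h
    push Not at h
    have hj : b ∈ (⊥ : Ideal B).jacobson := by
      rw [Ideal.jacobson, Submodule.mem_sInf]
      exact fun m hm => h m hm.2
    rw [IsJacobsonRing.out' _ Ideal.isPrime_bot.isRadical, Ideal.mem_bot] at hj
    exact hb hj
  let _ : Field (B ⧸ m) := Ideal.Quotient.field m
  have : Module.Finite k (B ⧸ m) := finite_of_finite_type_of_isJacobsonRing k (B ⧸ m)
  have hbij := IsAlgClosed.algebraMap_bijective_of_isIntegral (k := k) (K := B ⧸ m)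
  let e := AlgEquiv.ofBijective (Algebra.ofId k (B ⧸ m)) hbij
  refine ⟨e.symm.toAlgHom.comp (Ideal.Quotient.mkₐ k m), fun h => hbm ?_⟩
  rw [← Ideal.Quotient.eq_zero_iff_mem]
  exact e.symm.injective (h.trans (map_zero _).symm)

/-- Tensoring a domain with a domain over an algebraically closed field gives a domain. -/
theorem isDomain_tensorProduct (K R : Type u) [CommRing K] [IsDomain K] [Algebra k K] [CommRing R]
    [IsDomain R] [Algebra k R] : IsDomain (K ⊗[k] R) := by
  classical
  have : Nontrivial (K ⊗[k] R) :=
    Algebra.TensorProduct.nontrivial_of_algebraMap_injective_of_isDomain k K R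
      (algebraMap k _).injective (algebraMap k _).injective
  suffices NoZeroDivisors (K ⊗[k] R) from NoZeroDivisors.to_isDomain _
  refine ⟨fun {f g} hfg => ?_⟩
  obtain ⟨bR⟩ : Nonempty (Module.Basis (Module.Free.ChooseBasisIndex k R) k R) :=
    ⟨Module.Free.chooseBasis k R⟩
  let bK := bR.baseChange K
  by_contra hne
  push Not at hne
  obtain ⟨i, hi⟩ : ∃ i, bK.repr f i ≠ 0 := by
    by_contra h
    push Not at h
    exact hne.1 (bK.repr.map_eq_zero_iff.mp (Finsupp.ext h))
  obtain ⟨j, hj⟩ : ∃ j, bK.repr g j ≠ 0 := by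
    by_contra h
    push Not at h
    exact hne.2 (bK.repr.map_eq_zero_iff.mp (Finsupp.ext h))
  let s : Finset K := (bK.repr f).support.image (bK.repr f) ∪ (bK.repr g).support.image (bK.repr g)
  let B := Algebra.adjoin k (s : Set K)
  have : Algebra.FiniteType k B :=
    (Subalgebra.fg_iff_finiteType _).mp ⟨s, rfl⟩
  have hmemf : ∀ l, bK.repr f l ∈ B := fun l => by
    by_cases hl : l ∈ (bK.repr f).support
    · exact Algebra.subset_adjoin (Finset.mem_union_left _ (Finset.mem_image_of_mem _ hl))
    · rw [Finsupp.notMem_support_iff.mp hl]; exact zero_mem B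
  have hmemg : ∀ l, bK.repr g l ∈ B := fun l => by
    by_cases hl : l ∈ (bK.repr g).support
    · exact Algebra.subset_adjoin (Finset.mem_union_right _ (Finset.mem_image_of_mem _ hl))
    · rw [Finsupp.notMem_support_iff.mp hl]; exact zero_mem B
  let bB := bR.baseChange B
  let ι : B ⊗[k] R →ₐ[k] K ⊗[k] R := Algebra.TensorProduct.map B.val (AlgHom.id k R)
  have hι : Function.Injective ι :=
    Module.Flat.rTensor_preserves_injective_linearMap B.val.toLinearMap Subtype.val_injective
  let f₀ : B ⊗[k] R := ∑ l ∈ (bK.repr f).support, (⟨_, hmemf l⟩ : B) ⊗ₜ bR l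
  let g₀ : B ⊗[k] R := ∑ l ∈ (bK.repr g).support, (⟨_, hmemg l⟩ : B) ⊗ₜ bR l
  have key : ∀ z : K ⊗[k] R, z = ∑ l ∈ (bK.repr z).support, bK.repr z l ⊗ₜ bR l := fun z => by
    conv_lhs => rw [← bK.linearCombination_repr z]
    rw [Finsupp.linearCombination_apply, Finsupp.sum]
    refine Finset.sum_congr rfl fun l _ => ?_
    simp [bK, TensorProduct.smul_tmul']
  have hf₀ : ι f₀ = f := by
    rw [map_sum]
    exact (Finset.sum_congr rfl fun l _ => by simp [ι]).trans (key f).symm
  have hg₀ : ι g₀ = g := by
    rw [map_sum]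
    exact (Finset.sum_congr rfl fun l _ => by simp [ι]).trans (key g).symm
  have h0 : f₀ * g₀ = 0 := hι (by rw [map_mul, hf₀, hg₀, hfg, map_zero])
  obtain ⟨φ, hφ⟩ := exists_algHom_apply_ne_zero (k := k)
    (b := (⟨_, hmemf i⟩ : B) * ⟨_, hmemg j⟩)
    (mul_ne_zero (fun h => hi (congrArg Subtype.val h)) fun h => hj (congrArg Subtype.val h))
  rw [map_mul] at hφ
  let ev : B ⊗[k] R →ₐ[k] R := Algebra.TensorProduct.lift ((Algebra.ofId k R).comp φ)
    (AlgHom.id k R) fun _ _ => Commute.all _ _
  have h1 := congrArg ev h0
  rw [map_mul, map_zero] at h1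
  have hev : ∀ (t : Finset _) (c : Module.Free.ChooseBasisIndex k R → B) (l : _), l ∈ t →
      φ (c l) ≠ 0 → ev (∑ l ∈ t, c l ⊗ₜ bR l) ≠ 0 := fun t c l hl hc h => by
    rw [map_sum] at h
    simp only [ev, Algebra.TensorProduct.lift_tmul, AlgHom.comp_apply, Algebra.ofId_apply,
      AlgHom.id_apply, ← Algebra.smul_def] at h
    exact hc (linearIndependent_iff'.mp bR.linearIndependent t (fun l => φ (c l)) h l hl)
  rcases mul_eq_zero.mp h1 with h | h
  · exact hev _ (fun l => ⟨_, hmemf l⟩) i (Finsupp.mem_support_iff.mpr hi)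
      (left_ne_zero_of_mul hφ) h
  · exact hev _ (fun l => ⟨_, hmemg l⟩) j (Finsupp.mem_support_iff.mpr hj)
      (right_ne_zero_of_mul hφ) h

end Tensor

section Dedekind

variable {k : Type u} [Field k] [IsAlgClosed k]

/-- The local rings at maximal ideals of an étale domain over a line are discrete valuation
rings. -/
theorem isDVR_of_etale_polynomial {A : Type u} [CommRing A] [IsDomain A] [Algebra k A]
    (g : k[X] →ₐ[k] A) (hg : g.toRingHom.Etale) (m : Ideal A) [m.IsMaximal] :
    IsDiscreteValuationRing (Localization.AtPrime m) := by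
  algebraize [g.toRingHom]
  have : IsScalarTower k k[X] A := .of_algebraMap_eq fun r => (g.commutes r).symm
  have : Algebra.FiniteType k A := Algebra.FiniteType.trans (R := k) (S := k[X]) (A := A) inferInstance inferInstance
  have : IsJacobsonRing A := isJacobsonRing_of_finiteType (A := k)
  have : IsNoetherianRing A := Algebra.FiniteType.isNoetherianRing k A
  have : Module.Flat k[X] A := inferInstance
  have : Module.Finite k (A ⧸ m) :=
    letI := Ideal.Quotient.field m
    finite_of_finite_type_of_isJacobsonRing k (A ⧸ m)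
  obtain ⟨a, ha⟩ := (IsAlgClosed.algebraMap_bijective_of_isIntegral (k := k) (K := A ⧸ m)).2
    (Ideal.Quotient.mk m (g X))
  let t : k[X] := X - C a
  have htm : algebraMap k[X] A t ∈ m := by
    rw [← Ideal.Quotient.eq_zero_iff_mem]
    show Ideal.Quotient.mk m (g (X - C a)) = 0
    rw [map_sub, map_sub, ← ha, sub_eq_zero, ← Polynomial.algebraMap_eq, g.commutes]
    rfl
  have hunder : m.under k[X] = Ideal.span {t} := by
    refine ((PrincipalIdealRing.isMaximal_of_irreducible (irreducible_X_sub_C a)).eq_of_le
      (Ideal.IsPrime.ne_top inferInstance) ?_).symm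
    rw [Ideal.span_singleton_le_iff_mem]
    exact htm
  have ht0 : algebraMap k[X] A t ≠ 0 := by
    intro h
    have hne : (X - C a : k[X]) ≠ 0 := X_sub_C_ne_zero a
    have hinj := Module.Flat.rTensor_preserves_injective_linearMap (M := A)
      (LinearMap.mulLeft k[X] t) fun x y hxy => mul_left_cancel₀ hne hxy
    have h1 := hinj (a₁ := (1 : k[X]) ⊗ₜ (1 : A)) (a₂ := 0) (by
      rw [LinearMap.rTensor_tmul, map_zero, LinearMap.mulLeft_apply,
        show t * (1 : k[X]) = t • (1 : k[X]) from rfl, TensorProduct.smul_tmul,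
        ← Algebra.algebraMap_eq_smul_one, h, TensorProduct.tmul_zero])
    exact one_ne_zero ((TensorProduct.lid k[X] A).map_eq_zero_iff.mpr h1 |>.symm.trans
      (by simp)).symm
  let _ := Localization.AtPrime.algebraOfLiesOver (m.under k[X]) m
  have hun := ((Algebra.isUnramifiedAt_iff_map_eq (R := k[X]) (p := m.under k[X]) (q := m)).mp
    inferInstance).2
  have hprinc : (IsLocalRing.maximalIdeal (Localization.AtPrime m)).IsPrincipal := by
    rw [← hun, hunder, Ideal.map_span, Set.image_singleton]
    exact ⟨⟨_, rfl⟩⟩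
  refine ((IsDiscreteValuationRing.TFAE (R := Localization.AtPrime m) ?_).out 0 4).mpr hprinc
  rw [IsLocalRing.isField_iff_maximalIdeal_eq, ← Localization.AtPrime.map_eq_maximalIdeal]
  intro h
  refine ht0 ((IsLocalization.to_map_eq_zero_iff (Localization.AtPrime m) (x := _)
    (m.primeCompl_le_nonZeroDivisors)).mp ?_)
  rw [← Ideal.mem_bot, ← h]
  exact Ideal.mem_map_of_mem _ htm

/-- The local rings at maximal ideals of a standard smooth domain of relative dimension one. -/
theorem isDVR_of_isStandardSmooth {A : Type u} [CommRing A] [IsDomain A] (f : k →+* A)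
    (hf : f.IsStandardSmoothOfRelativeDimension 1) (m : Ideal A) [m.IsMaximal] :
    IsDiscreteValuationRing (Localization.AtPrime m) := by
  let _ : Algebra k A := f.toAlgebra
  obtain ⟨g, hgC, hg⟩ := hf.exists_etale_mvPolynomial
  let g' : MvPolynomial (Fin 1) k →ₐ[k] A := ⟨g, fun r => DFunLike.congr_fun hgC r⟩
  refine isDVR_of_etale_polynomial
    (g'.comp (MvPolynomial.uniqueAlgEquiv k (Fin 1)).symm.toAlgHom) ?_ m
  exact RingHom.Etale.stableUnderComposition _ _
    (RingHom.Etale.of_bijective
      (MvPolynomial.uniqueAlgEquiv k (Fin 1)).symm.bijective) hg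

/-- A domain smooth of relative dimension one over an algebraically closed field is Dedekind. -/
theorem isDedekindDomain_of_locally {A : Type u} [CommRing A] [IsDomain A] (f : k →+* A)
    (hf : RingHom.Locally (RingHom.IsStandardSmoothOfRelativeDimension 1) f) :
    IsDedekindDomain A ∧ ∀ m : Ideal A, m.IsMaximal → m ≠ ⊥ := by
  have hft : f.FiniteType :=
    (RingHom.locally_iff_of_localizationSpanTarget RingHom.finiteType_respectsIso
      RingHom.finiteType_ofLocalizationSpanTarget f).mp
      (RingHom.locally_of_locally (fun {R S} _ _ {g} hg =>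
        RingHom.FiniteType.of_finitePresentation
          (RingHom.Smooth.finitePresentation (RingHom.IsStandardSmooth.smooth
            (RingHom.IsStandardSmoothOfRelativeDimension.isStandardSmooth _ g hg)))) hf)
  obtain ⟨s, hs, hfs⟩ := hf
  let _ : Algebra k A := f.toAlgebra
  have : Algebra.FiniteType k A := hft
  have : IsNoetherianRing A := Algebra.FiniteType.isNoetherianRing k A
  have hdvr : ∀ m : Ideal A, ∀ _ : m.IsMaximal,
      IsDiscreteValuationRing (Localization.AtPrime m) := by
    intro m hm
    obtain ⟨r, hr, hrm⟩ : ∃ r ∈ s, r ∉ m := by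
      by_contra h
      push Not at h
      exact hm.ne_top (top_le_iff.mp (hs ▸ Ideal.span_le.mpr h))
    let Ar := Localization.Away r
    have hr0 : r ≠ 0 := fun h => hrm (h ▸ m.zero_mem)
    have : IsDomain Ar := IsLocalization.isDomain_localization
      (powers_le_nonZeroDivisors_of_noZeroDivisors hr0)
    have hdisj : Disjoint (Submonoid.powers r : Set A) m :=
      Set.disjoint_left.mpr fun x hx hxm => by
        obtain ⟨n, rfl⟩ := hx
        exact hrm (hm.isPrime.mem_of_pow_mem n hxm)
    let m' : Ideal Ar := m.map (algebraMap A Ar)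
    have hcomap : m'.comap (algebraMap A Ar) = m :=
      IsLocalization.under_map_of_isPrime_disjoint (Submonoid.powers r) Ar hm.isPrime hdisj
    have hm'p : m'.IsPrime :=
      IsLocalization.isPrime_of_isPrime_disjoint (Submonoid.powers r) Ar m hm.isPrime hdisj
    have : m'.IsMaximal := by
      obtain ⟨J, hJ, hle⟩ := m'.exists_le_maximal hm'p.ne_top
      suffices m' = J from this ▸ hJ
      have hc : J.comap (algebraMap A Ar) = m :=
        (hm.eq_of_le (Ideal.IsPrime.ne_top inferInstance)
          (hcomap ▸ Ideal.comap_mono hle)).symm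
      rw [← IsLocalization.map_under (Submonoid.powers r) Ar J, Ideal.under_def, hc]
    have := isDVR_of_isStandardSmooth ((algebraMap A Ar).comp f) (hfs r hr) m'
    have hloc : IsLocalization.AtPrime (Localization.AtPrime m') m := by
      have h := IsLocalization.isLocalization_atPrime_localization_atPrime
        (M := Submonoid.powers r) m'
      convert h using 2 <;> exact hcomap.symm
    exact IsDiscreteValuationRing.RingEquivClass.isDiscreteValuationRing
      (IsLocalization.algEquiv m.primeCompl (Localization.AtPrime m') (Localization.AtPrime m))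
  have hbot : ∀ m : Ideal A, m.IsMaximal → m ≠ ⊥ := by
    rintro m hm rfl
    have := hdvr ⊥ hm
    exact IsDiscreteValuationRing.not_a_field (Localization.AtPrime (⊥ : Ideal A)) (by
      rw [← Localization.AtPrime.map_eq_maximalIdeal, Ideal.map_bot])
  refine ⟨?_, hbot⟩
  have hone : Ring.DimensionLEOne A := ⟨fun {P} hP hPp => ?_⟩
  · have : IsDedekindDomainDvr A :=
      { is_dvr_at_nonzero_prime := fun P hP hPp => hdvr P (hone.maximalOfPrime hP hPp) }
    infer_instance
  obtain ⟨m, hm, hPm⟩ := P.exists_le_maximal hPp.ne_top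
  have := hdvr m hm
  by_contra hPmax
  have hlt : P < m := lt_of_le_of_ne hPm fun h => hPmax (h ▸ hm)
  have hdisj : Disjoint (m.primeCompl : Set A) P := Set.disjoint_left.mpr fun x hx hxP => hx (hPm hxP)
  let L := Localization.AtPrime m
  have hQ : (P.map (algebraMap A L)).IsPrime :=
    IsLocalization.isPrime_of_isPrime_disjoint m.primeCompl L P hPp hdisj
  have hPQ := IsLocalization.under_map_of_isPrime_disjoint m.primeCompl L hPp hdisj
  have hQ0 : P.map (algebraMap A L) ≠ ⊥ := by
    rw [Ne, Ideal.map_eq_bot_iff_of_injective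
      (IsLocalization.injective L m.primeCompl_le_nonZeroDivisors)]
    exact hP
  have := IsLocalRing.eq_maximalIdeal (hQ.isMaximal hQ0)
  rw [this, Localization.AtPrime.under_maximalIdeal] at hPQ
  exact hlt.ne hPQ.symm

attribute [local instance] Algebra.TensorProduct.rightAlgebra in
/-- Base change keeps a smooth domain of relative dimension one a Dedekind domain. -/
theorem dedekind_tensorProduct {A : Type u} [CommRing A] [IsDomain A] [Algebra k A]
    (hf : RingHom.Locally (RingHom.IsStandardSmoothOfRelativeDimension 1) (algebraMap k A))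
    (K : Type u) [Field K] [Algebra k K] [IsAlgClosed K] :
    IsDomain (K ⊗[k] A) ∧ IsDedekindDomain (K ⊗[k] A) := by
  have := isDomain_tensorProduct (k := k) K A
  refine ⟨this, (isDedekindDomain_of_locally (algebraMap K (K ⊗[k] A)) ?_).1⟩
  exact RingHom.locally_isStableUnderBaseChange
    RingHom.isStandardSmoothOfRelativeDimension_respectsIso
    (RingHom.isStandardSmoothOfRelativeDimension_isStableUnderBaseChange 1) k A K (K ⊗[k] A) hf

end Dedekind

section Rank

variable {k : Type u} [Field k] {Rp Rm Q : Type u} [CommRing Rp] [CommRing Rm] [CommRing Q]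
  [Algebra k Rp] [Algebra k Rm] [Algebra k Q]

/-- An independent family over `k[x]` moves to one of the same size over `k[1/x]`. -/
theorem card_le_of_bases (ip : Rp →ₐ[k] Q) (im : Rm →ₐ[k] Q) (hip : Function.Injective ip)
    {x : Rp} {y : Rm} (hxy : ip x * im y = 1)
    (hsurj : ∀ r : Q, ∃ (i : ℕ) (s : Rm), im y ^ i * r = im s) {d e : ℕ}
    {b : Fin d → Rp}
    (hb : Function.Injective fun c : Fin d → k[X] => ∑ i, aeval x (c i) * b i)
    {b' : Fin e → Rm}
    (hb' : Function.Bijective fun c : Fin e → k[X] => ∑ i, aeval y (c i) * b' i) : d ≤ e := by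
  classical
  choose n s hs using fun i => hsurj (ip (b i))
  let N := ∑ i, n i
  let v : Fin d → Rm := fun i => y ^ (N - n i) * s i
  have hn : ∀ i, n i ≤ N := fun i => Finset.single_le_sum (fun _ _ => Nat.zero_le _) (Finset.mem_univ i)
  have hv : ∀ i, im (v i) = im y ^ N * ip (b i) := fun i => by
    rw [map_mul, map_pow, ← hs, ← mul_assoc, ← pow_add, Nat.sub_add_cancel (hn i)]
  let _ : Algebra k[X] Rm := (aeval y).toAlgebra
  have hsmul : ∀ (p : k[X]) (r : Rm), p • r = aeval y p * r := fun p r => rfl
  have hli : LinearIndependent k[X] v := by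
    refine Fintype.linearIndependent_iff.mpr fun p hp => ?_
    simp only [hsmul] at hp
    let D := ∑ i, (p i).natDegree
    have hD : ∀ i, (p i).natDegree ≤ D := fun i =>
      Finset.single_le_sum (f := fun j => (p j).natDegree) (fun _ _ => Nat.zero_le _)
        (Finset.mem_univ i)
    have hrev : ∀ i, ip (aeval x ((p i).reflect D)) = ip x ^ D * im (aeval y (p i)) := fun i => by
      rw [← aeval_algHom_apply, ← aeval_algHom_apply, aeval_def, aeval_def]
      have : Invertible (im y) := ⟨ip x, hxy, by rw [mul_comm, hxy]⟩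
      have h := eval₂_reflect_mul_pow (algebraMap k Q) (im y) D (p i) (hD i)
      have hinv : ⅟(im y) = ip x :=
        invOf_eq_right_inv ((mul_comm _ _).trans hxy)
      rw [hinv] at h
      calc (p i |>.reflect D).eval₂ (algebraMap k Q) (ip x)
          = (p i |>.reflect D).eval₂ (algebraMap k Q) (ip x) * (im y ^ D * ip x ^ D) := by
            rw [← mul_pow, mul_comm (im y), hxy, one_pow, mul_one]
        _ = _ := by rw [← mul_assoc, h, mul_comm]
    have hzero : ∑ i, aeval x ((p i).reflect D) * b i = 0 := by
      refine hip ?_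
      rw [map_sum, map_zero]
      have hN : ∀ i, ip (aeval x ((p i).reflect D) * b i) =
          ip x ^ D * ip x ^ N * im (aeval y (p i) * v i) := fun i => by
        have h1 : ip x ^ N * im y ^ N = 1 := by rw [← mul_pow, hxy, one_pow]
        rw [map_mul, map_mul, hrev, hv]
        linear_combination (-(ip x ^ D * im (aeval y (p i)) * ip (b i))) * h1
      rw [Finset.sum_congr rfl fun i _ => hN i, ← Finset.mul_sum, ← map_sum, hp, map_zero,
        mul_zero]
    intro i
    have := congrFun (hb (a₁ := fun i => (p i).reflect D) (a₂ := 0) (by simpa using hzero)) i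
    rwa [Pi.zero_apply, reflect_eq_zero_iff] at this
  let B : Module.Basis (Fin e) k[X] Rm := Module.Basis.ofEquivFun
    (LinearEquiv.ofBijective
      { toFun := fun c : Fin e → k[X] => ∑ i, aeval y (c i) * b' i
        map_add' := fun c c' => by simp [add_mul, Finset.sum_add_distrib]
        map_smul' := fun p c => by simp [hsmul, Finset.mul_sum, mul_assoc] } hb').symm
  have : Module.Finite k[X] Rm := Module.Finite.of_basis B
  have := hli.fintype_card_le_finrank
  rwa [Fintype.card_fin, Module.finrank_eq_card_basis B, Fintype.card_fin] at this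

/-- A finite torsion-free algebra over `k[x]` is free. -/
theorem exists_polynomial_basis {R : Type u} [CommRing R] [IsDomain R] [Algebra k R] (x : R)
    (hx : Function.Injective (aeval x : k[X] →ₐ[k] R))
    (hfin : (aeval x : k[X] →ₐ[k] R).toRingHom.Finite) :
    ∃ d, 0 < d ∧ ∃ b : Fin d → R,
      Function.Bijective fun c : Fin d → k[X] => ∑ i, aeval x (c i) * b i := by
  let _ : Algebra k[X] R := (aeval x).toAlgebra
  have : Module.Finite k[X] R := hfin
  have : Module.IsTorsionFree k[X] R := (Module.isTorsionFree_iff_algebraMap_injective).mpr hx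
  have : Module.Free k[X] R := Module.free_of_finite_type_torsion_free'
  refine ⟨Module.finrank k[X] R, Module.finrank_pos, Module.finBasis k[X] R, ?_⟩
  have h : (fun c : Fin _ → k[X] => ∑ i, aeval x (c i) * Module.finBasis k[X] R i) =
      (Module.finBasis k[X] R).equivFun.symm := funext fun c => by
    rw [Module.Basis.equivFun_symm_apply]
    rfl
  rw [h]
  exact LinearEquiv.bijective _

end Rank

end FLTAgent.Jac
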