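import Fermat.Agent.Jac.CurveModel.Algebra

/-!
# Points of a smooth integral curve over an algebraically closed field
-/

set_option autoImplicit false

universe u

open CategoryTheory AlgebraicGeometry TopologicalSpace

namespace FLTAgent.Jac.Curve

variable {k : Type u} [Field k] [IsAlgClosed k] {C : Scheme.{u}} (c : C ⟶ Spec (CommRingCat.of k))

/-- The constants in the functions on an open set. -/
noncomputable def constHom (U : C.Opens) : k →+* Γ(C, U) :=
  ((Scheme.ΓSpecIso (CommRingCat.of k)).inv ≫ c.appLE ⊤ U le_top).hom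

theorem constHom_res {U V : C.Opens} (h : V ≤ U) (r : k) :
    C.presheaf.map (homOfLE h).op (constHom c U r) = constHom c V r := by
  have := c.appLE_map (U := (⊤ : (Spec (CommRingCat.of k)).Opens)) (V := U) le_top (homOfLE h).op
  exact DFunLike.congr_fun (congrArg CommRingCat.Hom.hom this)
    ((Scheme.ΓSpecIso (CommRingCat.of k)).inv r)

variable [IsIntegral C] [SmoothOfRelativeDimension 1 c]

theorem locally_constHom {U : C.Opens} (hU : IsAffineOpen U) :
    RingHom.Locally (RingHom.IsStandardSmoothOfRelativeDimension 1) (constHom c U) := by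
  have h := HasRingHomProperty.appLE (P := @SmoothOfRelativeDimension 1) c inferInstance
    ⟨⊤, isAffineOpen_top _⟩ ⟨U, hU⟩ le_top
  exact (RingHom.locally_respectsIso
    RingHom.isStandardSmoothOfRelativeDimension_respectsIso).2 _
      (Scheme.ΓSpecIso (CommRingCat.of k)).symm.commRingCatIsoToRingEquiv h

include c in
/-- The rings of affine open sets are Dedekind domains which are not fields. -/
theorem dedekind_affine {U : C.Opens} (hU : IsAffineOpen U) [Nonempty U] :
    IsDedekindDomain Γ(C, U) ∧ ∀ m : Ideal Γ(C, U), m.IsMaximal → m ≠ ⊥ :=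
  isDedekindDomain_of_locally _ (locally_constHom c hU)

omit [IsIntegral C] in
theorem exists_affine_nhd (P : C) : ∃ U : C.Opens, IsAffineOpen U ∧ P ∈ U := by
  obtain ⟨_, ⟨U, hU, rfl⟩, hP, -⟩ :=
    C.isBasis_affineOpens.exists_subset_of_mem_open (Set.mem_univ P) isOpen_univ
  exact ⟨U, hU, hP⟩

omit [SmoothOfRelativeDimension 1 c] in
theorem genericPoint_mem {U : C.Opens} {P : C} (hP : P ∈ U) : genericPoint C ∈ U :=
  ((genericPoint_spec C).mem_open_set_iff U.isOpen).mpr ⟨P, trivial, hP⟩

omit [SmoothOfRelativeDimension 1 c] in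
theorem eq_genericPoint_iff {U : C.Opens} (hU : IsAffineOpen U) {P : C} (hP : P ∈ U) :
    P = genericPoint C ↔ (hU.primeIdealOf ⟨P, hP⟩).asIdeal = ⊥ := by
  have : Nonempty U := ⟨⟨P, hP⟩⟩
  have hgen : (hU.primeIdealOf ⟨genericPoint C, genericPoint_mem hP⟩).asIdeal = ⊥ := by
    rw [hU.primeIdealOf_genericPoint, genericPoint_eq_bot_of_affine]
    rfl
  refine ⟨fun h => ?_, fun h => ?_⟩
  · subst h
    exact hgen
  · have := congrArg hU.fromSpec (PrimeSpectrum.ext (h.trans hgen.symm))
    rwa [hU.fromSpec_primeIdealOf, hU.fromSpec_primeIdealOf] at this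

include c in
theorem not_isClosed_genericPoint : ¬ IsClosed {genericPoint C} := fun h => by
  obtain ⟨U, hU, hP⟩ := exists_affine_nhd (genericPoint C)
  have : Nonempty U := ⟨⟨_, hP⟩⟩
  exact (dedekind_affine c hU).2 _ (hU.primeIdealOf_isMaximal_of_isClosed ⟨_, hP⟩ h)
    ((eq_genericPoint_iff hU hP).mp rfl)

include c in
/-- Every point but the generic one is closed. -/
theorem isClosed_singleton_of_ne {P : C} (h : P ≠ genericPoint C) : IsClosed {P} := by
  refine isClosed_of_closure_subset fun Q hQ => ?_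
  have hspec : P ⤳ Q := specializes_iff_mem_closure.mpr hQ
  obtain ⟨U, hU, hQU⟩ := exists_affine_nhd Q
  have hPU : P ∈ U := hspec.mem_open U.isOpen hQU
  have : Nonempty U := ⟨⟨P, hPU⟩⟩
  have := (dedekind_affine c hU).1
  have hp : (hU.primeIdealOf ⟨P, hPU⟩).asIdeal.IsMaximal :=
    Ideal.IsPrime.isMaximal inferInstance fun h0 => h ((eq_genericPoint_iff hU hPU).mpr h0)
  have hle : hU.primeIdealOf ⟨P, hPU⟩ ≤ hU.primeIdealOf ⟨Q, hQU⟩ := by
    rw [PrimeSpectrum.le_iff_specializes]
    refine hU.fromSpec.isOpenEmbedding.isInducing.specializes_iff.mp ?_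
    rw [hU.fromSpec_primeIdealOf, hU.fromSpec_primeIdealOf]
    exact hspec
  have := congrArg hU.fromSpec (PrimeSpectrum.ext (hp.eq_of_le (Ideal.IsPrime.ne_top inferInstance) hle))
  rw [hU.fromSpec_primeIdealOf, hU.fromSpec_primeIdealOf] at this
  exact this.symm

include c in
theorem valuationRing_stalk (P : C) : ValuationRing (C.presheaf.stalk P) := by
  obtain ⟨U, hU, hP⟩ := exists_affine_nhd P
  have : Nonempty U := ⟨⟨P, hP⟩⟩
  have := (dedekind_affine c hU).1
  let _ := TopCat.Presheaf.algebra_section_stalk C.presheaf (U := U) ⟨P, hP⟩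
  have := hU.isLocalization_stalk ⟨P, hP⟩
  by_cases h : (hU.primeIdealOf ⟨P, hP⟩).asIdeal = ⊥
  · have : IsFractionRing Γ(C, U) (C.presheaf.stalk P) := by
      have e : (hU.primeIdealOf ⟨P, hP⟩).asIdeal.primeCompl = nonZeroDivisors Γ(C, U) := by
        ext x
        rw [Ideal.mem_primeCompl_iff, h, Ideal.mem_bot, mem_nonZeroDivisors_iff_ne_zero]
      rw [IsFractionRing, ← e]
      infer_instance
    let _ := IsFractionRing.toField Γ(C, U) (K := C.presheaf.stalk P)
    exact inferInstance
  · have := IsLocalization.AtPrime.isDiscreteValuationRing_of_dedekind_domain Γ(C, U) h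
      (C.presheaf.stalk P)
    exact inferInstance

include c in
theorem isDVR_stalk {P : C} (h : P ≠ genericPoint C) :
    IsDiscreteValuationRing (C.presheaf.stalk P) := by
  obtain ⟨U, hU, hP⟩ := exists_affine_nhd P
  have : Nonempty U := ⟨⟨P, hP⟩⟩
  have := (dedekind_affine c hU).1
  let _ := TopCat.Presheaf.algebra_section_stalk C.presheaf (U := U) ⟨P, hP⟩
  have := hU.isLocalization_stalk ⟨P, hP⟩
  exact IsLocalization.AtPrime.isDiscreteValuationRing_of_dedekind_domain Γ(C, U)
    (fun h0 => h ((eq_genericPoint_iff hU hP).mpr h0)) (C.presheaf.stalk P)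

include c in
/-- Closed sets without the generic point are finite. -/
theorem finite_of_isClosed [QuasiCompact c] {Z : Set C} (hZ : IsClosed Z)
    (hη : genericPoint C ∉ Z) : Z.Finite := by
  have : Smooth c := SmoothOfRelativeDimension.smooth 1 c
  have : IsLocallyNoetherian C := LocallyOfFiniteType.isLocallyNoetherian c
  have : CompactSpace C := QuasiCompact.compactSpace_of_compactSpace c
  have : IsNoetherian C := {}
  obtain ⟨S, hS, hirr, hsup⟩ :=
    NoetherianSpace.exists_finite_set_closeds_irreducible (⟨Z, hZ⟩ : Closeds C)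
  have key : ∀ T ∈ S, (T : Set C).Finite := fun T hT => by
    obtain ⟨z, hz⟩ := QuasiSober.sober (hirr T hT) T.isClosed
    have hle : (T : Set C) ⊆ Z := (hsup ▸ le_sSup hT : T ≤ ⟨Z, hZ⟩)
    have hzT : z ∈ (T : Set C) := hz.mem
    have hcl := isClosed_singleton_of_ne c fun h => hη (h ▸ hle hzT)
    rw [← hz.def, hcl.closure_eq]
    exact Set.finite_singleton z
  have hcl : IsClosed (⋃ T ∈ S, (T : Set C)) :=
    hS.isClosed_biUnion fun T _ => T.isClosed
  have hle : sSup S ≤ (⟨_, hcl⟩ : Closeds C) :=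
    sSup_le fun T hT x hx => Set.mem_biUnion hT hx
  rw [← hsup] at hle
  exact (hS.biUnion key).subset hle

end FLTAgent.Jac.Curve
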